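/-
S41, unit U2, leaves U2-EQA1 and U2-EQA2: the two degeneracy maps
`alpha1, alpha2 : Hom(Γ₀(N), A) → Hom(Γ₀(N q), A)` commute with `T_ℓ` for `ℓ ∤ N q`.

Statements verbatim from `U2Spec.lean` (S41 coordinator), proved against the landed definitions
`Fermat.Agent.S41.H41.alpha1 / alpha2` and `Fermat.Agent.S16.H75.heckeHom`.
-/
import Mathlib
import Fermat.Agent.S41.H41.Degeneracy

set_option autoImplicit false
set_option linter.unusedVariables false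

open CongruenceSubgroup ModularCurve ModularCurve.Period
open scoped MatrixGroups
open Fermat.Agent.S16.H75 Fermat.Agent.S41.H41

namespace Fermat.Agent.S41.H39

variable {N q : ℕ}

/-- LEAF U2-EQA1: restriction commutes with `T_ℓ`, `ℓ ∤ N q`. -/
theorem alpha1_heckeHom (hq : q.Prime) (hqN : ¬ q ∣ N) (ℓ : Nat.Primes) (hℓ : ¬ (ℓ : ℕ) ∣ N * q)
    {A : Type*} [AddCommGroup A] (φ : Additive (Gamma0 N) →+ A) :
    alpha1 N q A (heckeHom N ℓ A φ) = heckeHom (N * q) ℓ A (alpha1 N q A φ) := by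
  have hℓN : ¬ (ℓ : ℕ) ∣ N := fun h => hℓ (Dvd.dvd.mul_right h q)
  rw [heckeHom_of_not_dvd hℓN, heckeHom_of_not_dvd hℓ]
  refine AddMonoidHom.ext fun γ => ?_
  obtain ⟨g, rfl⟩ : ∃ g : Gamma0 (N * q), Additive.ofMul g = γ := ⟨Additive.toMul γ, rfl⟩
  rw [alpha1_apply, IsHeckeSys.heckeOp_apply, IsHeckeSys.heckeOp_apply]
  refine Finset.sum_congr rfl fun i _ => ?_
  rw [alpha1_apply]
  congr 2
  exact ((isHeckeSys_T ℓ.2 hℓN).unique (γ := inclGamma N q g) (i := i)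
    (i' := (isHeckeSys_T ℓ.2 hℓ).perm g i)
    (γ' := inclGamma N q ((isHeckeSys_T ℓ.2 hℓ).coc g i))
    (by rw [mat_inclGamma, mat_inclGamma]; exact (isHeckeSys_T ℓ.2 hℓ).spec g i)).2

/-! ### Conjugation of the `T_ℓ`-representatives by `δ = diag(q, 1)` -/

/-- The upper unipotent element `[1 m; 0 1]` of `Γ₀(N)`. -/
def upT (N : ℕ) (m : ℤ) : Gamma0 N :=
  ⟨(⟨!![1, m; 0, 1], by simp [Matrix.det_fin_two_of]⟩ : SL(2, ℤ)),
    (mem_Gamma0_iff_dvd _).2 (by simp)⟩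

theorem mat_upT (N : ℕ) (m : ℤ) : mat (upT N m) = !![1, m; 0, 1] := rfl

/-- Multiplication by `q` on `Fin ℓ`, a bijection when `ℓ` is a prime not dividing `q`. -/
noncomputable def sigmaFin (ℓ q : ℕ) (hℓ : ℓ.Prime) (h : ¬ ℓ ∣ q) : Fin ℓ ≃ Fin ℓ :=
  Equiv.ofBijective (fun j => ⟨(q * j) % ℓ, Nat.mod_lt _ hℓ.pos⟩) (by
    rw [← Finite.injective_iff_bijective]
    intro j j' hjj
    have h1 : (q * j) % ℓ = (q * j') % ℓ := congrArg Fin.val hjj
    have hcop : Nat.Coprime ℓ q := (Nat.Prime.coprime_iff_not_dvd hℓ).2 h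
    have h2 : (j : ℕ) ≡ j' [MOD ℓ] := Nat.ModEq.cancel_left_of_coprime hcop h1
    apply Fin.ext
    rw [Nat.ModEq, Nat.mod_eq_of_lt j.2, Nat.mod_eq_of_lt j'.2] at h2
    exact h2)

theorem sigmaFin_apply (ℓ q : ℕ) (hℓ : ℓ.Prime) (h : ¬ ℓ ∣ q) (j : Fin ℓ) :
    ((sigmaFin ℓ q hℓ h j : Fin ℓ) : ℕ) = (q * j) % ℓ := rfl

/-- The permutation of the index set of `alphaT ℓ` induced by conjugation with `δ`. -/
noncomputable def sigmaDelta (ℓ q : ℕ) (hℓ : ℓ.Prime) (h : ¬ ℓ ∣ q) :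
    Option (Fin ℓ) ≃ Option (Fin ℓ) := (sigmaFin ℓ q hℓ h).optionCongr

/-- The unipotent correction terms. -/
def tDelta (N ℓ q : ℕ) : Option (Fin ℓ) → Gamma0 N
  | none => 1
  | some j => upT N (((q * (j : ℕ)) / ℓ : ℕ) : ℤ)

/-- `δ α_i = t_i α_{σ i} δ` for the representatives `α_i` of `T_ℓ`, `δ = diag(q, 1)`. -/
theorem delta_mul_alphaT (N ℓ q : ℕ) (hℓ : ℓ.Prime) (h : ¬ ℓ ∣ q) (i : Option (Fin ℓ)) :
    famDelta q () * alphaT ℓ i =
      mat (tDelta N ℓ q i) * alphaT ℓ (sigmaDelta ℓ q hℓ h i) * famDelta q () := by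
  cases i with
  | none =>
    show famDelta q () * alphaInf ℓ = mat (1 : Gamma0 N) * alphaInf ℓ * famDelta q ()
    rw [mat_one, Matrix.one_mul]
    ext a b
    fin_cases a <;> fin_cases b <;>
      simp [famDelta, alphaInf, Matrix.mul_apply, Fin.sum_univ_two, mul_comm]
  | some j =>
    show famDelta q () * alphaFin ℓ j =
      mat (upT N (((q * (j : ℕ)) / ℓ : ℕ) : ℤ)) * alphaFin ℓ (sigmaFin ℓ q hℓ h j) * famDelta q ()
    rw [mat_upT, sigmaFin_apply]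
    have h0 : q * (j : ℕ) = (q * (j : ℕ)) % ℓ + ((q * (j : ℕ)) / ℓ) * ℓ := by
      rw [mul_comm ((q * (j : ℕ)) / ℓ)]
      exact (Nat.mod_add_div _ _).symm
    have hdiv : ((q : ℤ) * (j : ℕ)) = (((q * (j : ℕ)) % ℓ : ℕ) : ℤ) +
        (((q * (j : ℕ)) / ℓ : ℕ) : ℤ) * (ℓ : ℤ) := by
      exact_mod_cast h0
    ext a b
    fin_cases a <;> fin_cases b <;>
      simp [famDelta, alphaFin, Matrix.mul_apply, Fin.sum_univ_two]
    exact hdiv

/-- LEAF U2-EQA2: the second degeneracy map commutes with `T_ℓ`, `ℓ ∤ N q`. -/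
theorem alpha2_heckeHom (hq : q.Prime) (hqN : ¬ q ∣ N) (ℓ : Nat.Primes) (hℓ : ¬ (ℓ : ℕ) ∣ N * q)
    {A : Type*} [AddCommGroup A] (φ : Additive (Gamma0 N) →+ A) :
    alpha2 N q A (heckeHom N ℓ A φ) = heckeHom (N * q) ℓ A (alpha2 N q A φ) := by
  have hℓN : ¬ (ℓ : ℕ) ∣ N := fun h => hℓ (Dvd.dvd.mul_right h q)
  have hℓq : ¬ (ℓ : ℕ) ∣ q := fun h => hℓ (Dvd.dvd.mul_left h N)
  have hq0 : q ≠ 0 := hq.ne_zero
  have D := isCorrSys_delta N q hq0
  have hT := isHeckeSys_T (N := N) ℓ.2 hℓN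
  have hT' := isHeckeSys_T (N := N * q) ℓ.2 hℓ
  rw [heckeHom_of_not_dvd hℓN, heckeHom_of_not_dvd hℓ]
  have hα2 : ∀ (ψ : Additive (Gamma0 N) →+ A) (g : Gamma0 (N * q)),
      alpha2 N q A ψ (Additive.ofMul g) = ψ (Additive.ofMul (D.coc g ())) := by
    intro ψ g
    rw [alpha2, dif_pos hq0, IsCorrSys.corrOp_apply, Fintype.sum_unique]
  have hDspec : ∀ g : Gamma0 (N * q),
      famDelta q () * mat g = mat (D.coc g ()) * famDelta q () := fun g => D.spec g ()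
  have hdet : (famDelta q ()).det ≠ 0 := D.det_ne ()
  refine AddMonoidHom.ext fun γ => ?_
  obtain ⟨g, rfl⟩ : ∃ g : Gamma0 (N * q), Additive.ofMul g = γ := ⟨Additive.toMul γ, rfl⟩
  rw [hα2, IsHeckeSys.heckeOp_apply, IsHeckeSys.heckeOp_apply]
  simp only [hα2]
  set σ := sigmaDelta ℓ q ℓ.2 hℓq with hσ
  set t := tDelta N ℓ q with ht
  have key : ∀ i, hT.coc (D.coc g ()) (σ i) =
      (t i)⁻¹ * D.coc (hT'.coc g i) () * t (hT'.perm g i) := by
    intro i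
    have Hi := delta_mul_alphaT N ℓ q ℓ.2 hℓq i
    have Hπ := delta_mul_alphaT N ℓ q ℓ.2 hℓq (hT'.perm g i)
    have e1 : alphaT ℓ (σ i) * famDelta q () = mat (t i)⁻¹ * (famDelta q () * alphaT ℓ i) := by
      rw [Hi, ← Matrix.mul_assoc, ← Matrix.mul_assoc, mat_inv_mul, Matrix.one_mul]
    refine (hT.unique (i' := σ (hT'.perm g i)) ?_).2
    apply mul_right_cancel_of_det_ne_zero hdet
    calc alphaT ℓ (σ i) * mat (D.coc g ()) * famDelta q ()
        = alphaT ℓ (σ i) * (famDelta q () * mat g) := by rw [Matrix.mul_assoc, ← hDspec]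
      _ = (alphaT ℓ (σ i) * famDelta q ()) * mat g := by rw [Matrix.mul_assoc]
      _ = mat (t i)⁻¹ * (famDelta q () * (alphaT ℓ i * mat g)) := by
          rw [e1]; simp only [Matrix.mul_assoc]
      _ = mat (t i)⁻¹ * (famDelta q () * (mat (hT'.coc g i) * alphaT ℓ (hT'.perm g i))) := by
          rw [hT'.spec g i]
      _ = mat (t i)⁻¹ * ((famDelta q () * mat (hT'.coc g i)) * alphaT ℓ (hT'.perm g i)) := by
          rw [Matrix.mul_assoc]
      _ = mat (t i)⁻¹ * ((mat (D.coc (hT'.coc g i) ()) * famDelta q ()) *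
            alphaT ℓ (hT'.perm g i)) := by rw [hDspec]
      _ = mat (t i)⁻¹ * (mat (D.coc (hT'.coc g i) ()) *
            (famDelta q () * alphaT ℓ (hT'.perm g i))) := by rw [Matrix.mul_assoc]
      _ = mat (t i)⁻¹ * (mat (D.coc (hT'.coc g i) ()) *
            (mat (t (hT'.perm g i)) * alphaT ℓ (σ (hT'.perm g i)) * famDelta q ())) := by
          rw [Hπ]
      _ = mat ((t i)⁻¹ * D.coc (hT'.coc g i) () * t (hT'.perm g i)) *
            alphaT ℓ (σ (hT'.perm g i)) * famDelta q () := by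
          rw [mat_mul, mat_mul]; simp only [Matrix.mul_assoc]
  rw [← Equiv.sum_comp σ (fun k => φ (Additive.ofMul (hT.coc (D.coc g ()) k)))]
  simp only [key, ofMul_mul, ofMul_inv, map_add, map_neg, Finset.sum_add_distrib,
    Finset.sum_neg_distrib]
  have h2 : ∑ i, φ (Additive.ofMul (t (hT'.perm g i))) = ∑ i, φ (Additive.ofMul (t i)) := by
    rw [← Equiv.sum_comp (hT'.permEquiv g) (fun i => φ (Additive.ofMul (t i)))]
    rfl
  rw [h2]
  abel

end Fermat.Agent.S41.H39
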