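/-
S41, unit U8 (assembly), abstract core.

Ribet's counting step "Ihara + duality + level-raising congruence  ==>  a q-new class at the
maximal ideal" as pure commutative algebra, elementwise (no localized modules, no generalized
eigenspaces, no rank count), together with the glue lemmas that produce its three hypotheses.

Everything here is Mathlib-only.
-/
import Mathlib

set_option autoImplicit false

namespace Fermat.Agent.S41.H39

/-! ### The counting core -/

/-- **Ribet's counting step**, abstract elementwise form.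
`X` plays the role of (two copies of) the level-`N` lattice, `Y` of the level-`Nq` lattice,
`α` of the pair of degeneracy pull-backs, `β` of the pair of push-forwards.
* `hA1`: the cokernel of `β` vanishes at `𝔪`;
* `hA2`: Ihara's lemma at `𝔪` (`α` is injective modulo `p` at `𝔪`);
* `hA3`: the level-raising congruence (`β ∘ α` is not injective modulo `p` at `𝔪`).
Conclusion: `ker β` (the `q`-new lattice) does not vanish at `𝔪`. -/
theorem exists_mem_ker_forall_smul_ne_zero
    {R X Y : Type*} [CommRing R] [AddCommGroup X] [Module R X] [AddCommGroup Y] [Module R Y]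
    (𝔪 : Ideal R) [h𝔪 : 𝔪.IsPrime] (p : R) (α : X →ₗ[R] Y) (β : Y →ₗ[R] X)
    (hA1 : ∀ x : X, ∃ s : R, s ∉ 𝔪 ∧ ∃ y : Y, β y = s • x)
    (hA2 : ∀ w : X, (∃ y : Y, α w = p • y) → ∃ s : R, s ∉ 𝔪 ∧ ∃ x : X, s • w = p • x)
    (hA3 : ∃ w : X, (∃ x : X, β (α w) = p • x) ∧ ∀ s : R, s ∉ 𝔪 → ∀ x : X, s • w ≠ p • x) :
    ∃ y : Y, β y = 0 ∧ ∀ s : R, s ∉ 𝔪 → s • y ≠ 0 := by
  obtain ⟨w, ⟨x', hx'⟩, hw⟩ := hA3
  obtain ⟨s', hs', y', hy'⟩ := hA1 x'
  refine ⟨s' • α w - p • y', ?_, ?_⟩
  · rw [map_sub, map_smul, map_smul, hx', hy', smul_comm, sub_self]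
  · intro s'' hs'' h0
    have h1 : α ((s'' * s') • w) = p • (s'' • y') := by
      rw [map_smul, mul_smul, smul_comm p s'' y', ← sub_eq_zero, ← smul_sub]
      exact h0
    obtain ⟨s, hs, x, hx⟩ := hA2 _ ⟨_, h1⟩
    refine hw (s * (s'' * s')) ?_ x ?_
    · intro h
      rcases h𝔪.mem_or_mem h with h | h
      · exact hs h
      · rcases h𝔪.mem_or_mem h with h | h
        · exact hs'' h
        · exact hs' h
    · rw [mul_smul]
      exact hx

/-! ### Glue 1: from a class supported at `𝔪` to `𝔪 K ≠ K` (Nakayama) -/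

/-- If a finite module `K` has an element which is not killed by any `s ∉ 𝔪`, then `𝔪 K ≠ K`. -/
theorem smul_top_ne_top_of_forall_smul_ne_zero
    {R K : Type*} [CommRing R] [AddCommGroup K] [Module R K] [Module.Finite R K]
    (𝔪 : Ideal R) (h𝔪 : 𝔪 ≠ ⊤) (y : K) (hy : ∀ s : R, s ∉ 𝔪 → s • y ≠ 0) :
    𝔪 • (⊤ : Submodule R K) ≠ ⊤ := by
  intro htop
  obtain ⟨r, hr, hr0⟩ := Submodule.exists_sub_one_mem_and_smul_eq_zero_of_fg_of_le_smul 𝔪
    (⊤ : Submodule R K) Module.Finite.fg_top (by rw [htop])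
  have hr' : r ∉ 𝔪 := fun h => h𝔪 ((Ideal.eq_top_iff_one _).2 (by simpa using 𝔪.sub_mem h hr))
  exact hy r hr' (hr0 y trivial)

/-- An ideal `I` with `I K ≠ K` for some module `K` is proper. -/
theorem ideal_ne_top_of_smul_top_ne_top
    {A K : Type*} [CommRing A] [AddCommGroup K] [Module A K] (I : Ideal A)
    (h : I • (⊤ : Submodule A K) ≠ ⊤) : I ≠ ⊤ := by
  rintro rfl
  exact h (by simp)

/-! ### Glue 2: "no `𝔪`-torsion" implies "killed by some `r ∈ 1 + 𝔪`" for finite-length modules -/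

/-- A submodule killed by a power of `𝔪` and without nonzero element killed by `𝔪` is zero. -/
theorem eq_bot_of_pow_smul_eq_bot
    {R C : Type*} [CommRing R] [AddCommGroup C] [Module R C] (𝔪 : Ideal R)
    (h : ∀ c : C, (∀ m ∈ 𝔪, m • c = 0) → c = 0) (n : ℕ) (D : Submodule R C)
    (hD : 𝔪 ^ n • D = ⊥) : D = ⊥ := by
  induction n with
  | zero => simpa using hD
  | succ n ih =>
    apply ih
    rw [eq_bot_iff]
    intro c hc
    rw [Submodule.mem_bot]
    apply h
    intro m hm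
    have : m • c ∈ 𝔪 ^ (n + 1) • D := by
      rw [pow_succ', mul_smul]
      exact Submodule.smul_mem_smul hm hc
    rw [hD] at this
    simpa using this

/-- If a module of finite length has no nonzero element killed by the ideal `𝔪`, then it is
killed by some `r ≡ 1 mod 𝔪`. -/
theorem exists_sub_one_mem_and_forall_smul_eq_zero
    {R C : Type*} [CommRing R] [AddCommGroup C] [Module R C] [IsNoetherian R C] [IsArtinian R C]
    (𝔪 : Ideal R) (h : ∀ c : C, (∀ m ∈ 𝔪, m • c = 0) → c = 0) :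
    ∃ r : R, r - 1 ∈ 𝔪 ∧ ∀ c : C, r • c = 0 := by
  -- the chain `𝔪 ^ n • ⊤` stabilizes
  obtain ⟨D, ⟨n, rfl⟩, hmin⟩ := IsArtinian.set_has_minimal
    (Set.range fun n : ℕ => 𝔪 ^ n • (⊤ : Submodule R C)) ⟨_, ⟨0, rfl⟩⟩
  have hle : 𝔪 ^ n • (⊤ : Submodule R C) ≤ 𝔪 • (𝔪 ^ n • (⊤ : Submodule R C)) := by
    have h1 : 𝔪 • (𝔪 ^ n • (⊤ : Submodule R C)) = 𝔪 ^ (n + 1) • (⊤ : Submodule R C) := by
      rw [pow_succ', mul_smul]
    have h2 : 𝔪 ^ (n + 1) • (⊤ : Submodule R C) ≤ 𝔪 ^ n • (⊤ : Submodule R C) := by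
      rw [← h1]
      exact Submodule.smul_le_right
    rw [h1]
    by_contra hne
    exact hmin _ ⟨n + 1, rfl⟩ (lt_of_le_of_ne h2 fun heq => hne heq.ge)
  obtain ⟨r, hr, hr0⟩ := Submodule.exists_sub_one_mem_and_smul_eq_zero_of_fg_of_le_smul 𝔪
    (𝔪 ^ n • (⊤ : Submodule R C)) (IsNoetherian.noetherian _) hle
  refine ⟨r, hr, ?_⟩
  -- `r C` is killed by `𝔪 ^ n`, hence zero
  have hbot : (⊤ : Submodule R C).map (LinearMap.lsmul R C r) = ⊥ := by
    apply eq_bot_of_pow_smul_eq_bot 𝔪 h n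
    rw [eq_bot_iff, Submodule.smul_le]
    rintro m hm _ ⟨c, -, rfl⟩
    rw [Submodule.mem_bot, LinearMap.lsmul_apply, smul_comm]
    exact hr0 _ (Submodule.smul_mem_smul hm trivial)
  intro c
  have : r • c ∈ (⊤ : Submodule R C).map (LinearMap.lsmul R C r) := ⟨c, trivial, rfl⟩
  rw [hbot] at this
  simpa using this

/-! ### Glue 3a: duality over a field -/

/-- Duality step: if `a : V → V'` and `b : V' → V` are adjoint for left-nondegenerate forms,
and a self-adjoint operator `s` kills `ker a`, then `s V ⊆ b V'`. -/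
theorem range_le_range_of_adjoint
    {k V V' : Type*} [Field k] [AddCommGroup V] [Module k V] [FiniteDimensional k V]
    [AddCommGroup V'] [Module k V']
    (BV : V →ₗ[k] V →ₗ[k] k) (BV' : V' →ₗ[k] V' →ₗ[k] k)
    (a : V →ₗ[k] V') (b : V' →ₗ[k] V) (s : V →ₗ[k] V)
    (hadj : ∀ v v', BV' (a v) v' = BV v (b v'))
    (hV : ∀ v, (∀ w, BV v w = 0) → v = 0)
    (hV' : ∀ v', (∀ w', BV' v' w' = 0) → v' = 0)
    (hs : ∀ v w, BV (s v) w = BV v (s w))
    (hker : ∀ v, a v = 0 → s v = 0) :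
    LinearMap.range s ≤ LinearMap.range b := by
  have hinj : Function.Injective BV := by
    rw [← LinearMap.ker_eq_bot, LinearMap.ker_eq_bot']
    intro v hv
    exact hV v fun w => by rw [hv]; rfl
  have hsurj : Function.Surjective BV :=
    (LinearMap.injective_iff_surjective_of_finrank_eq_finrank
      (Subspace.dual_finrank_eq (K := k) (V := V)).symm).1 hinj
  rintro _ ⟨x, rfl⟩
  rw [← Subspace.dualAnnihilator_dualCoannihilator_eq (W := LinearMap.range b),
    Submodule.mem_dualCoannihilator]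
  intro φ hφ
  obtain ⟨c, rfl⟩ := hsurj φ
  have hc : a c = 0 := by
    apply hV'
    intro w'
    rw [hadj]
    exact (Submodule.mem_dualAnnihilator _).1 hφ _ ⟨w', rfl⟩
  rw [← hs, hker c hc]
  simp

/-! ### Glue 3b: from "modulo `p`" to "at `𝔪`" (Cayley–Hamilton form of Nakayama) -/

/-- If `s X ⊆ β Y + p X` with `s ∉ 𝔪`, `p ∈ 𝔪`, `𝔪` prime and `X` finite, then some
`s' ∉ 𝔪` satisfies `s' X ⊆ β Y`. -/
theorem exists_notMem_forall_smul_mem_range
    {R X Y : Type*} [CommRing R] [AddCommGroup X] [Module R X] [Module.Finite R X]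
    [AddCommGroup Y] [Module R Y]
    (𝔪 : Ideal R) [h𝔪 : 𝔪.IsPrime] (p : R) (hp : p ∈ 𝔪) (β : Y →ₗ[R] X) (s : R) (hs : s ∉ 𝔪)
    (h : ∀ x : X, ∃ y : Y, ∃ x' : X, s • x = β y + p • x') :
    ∃ s' : R, s' ∉ 𝔪 ∧ ∀ x : X, ∃ y : Y, β y = s' • x := by
  classical
  set Q := X ⧸ LinearMap.range β with hQ
  have hrange : LinearMap.range (algebraMap R (Module.End R Q) s) ≤
      Ideal.span {p} • (⊤ : Submodule R Q) := by
    rintro _ ⟨q, rfl⟩
    obtain ⟨x, rfl⟩ := Submodule.Quotient.mk_surjective _ q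
    obtain ⟨y, x', hx⟩ := h x
    have : (algebraMap R (Module.End R Q) s) (Submodule.Quotient.mk x) =
        p • (Submodule.Quotient.mk x' : Q) := by
      rw [Module.algebraMap_end_apply, ← Submodule.Quotient.mk_smul, hx,
        Submodule.Quotient.mk_add, Submodule.Quotient.mk_smul,
        (Submodule.Quotient.mk_eq_zero _).2 (LinearMap.mem_range_self β y), zero_add]
    rw [this]
    exact Submodule.smul_mem_smul (Ideal.subset_span rfl) trivial
  obtain ⟨P, hPm, -, hPc, hP0⟩ :=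
    LinearMap.exists_monic_and_natDegree_eq_and_coeff_mem_pow_and_aeval_eq_zero R
      (algebraMap R (Module.End R Q) s) (Ideal.span {p}) hrange
  rw [Polynomial.aeval_algebraMap_apply] at hP0
  refine ⟨Polynomial.aeval s P, ?_, ?_⟩
  · -- `P(s) ≡ s ^ deg P mod 𝔪`
    intro hmem
    have hsn : s ^ P.natDegree ∉ 𝔪 := fun h' => hs (h𝔪.mem_of_pow_mem _ h')
    apply hsn
    have hsum : Polynomial.aeval s P = ∑ i ∈ Finset.range (P.natDegree + 1), P.coeff i * s ^ i := by
      rw [Polynomial.coe_aeval_eq_eval, Polynomial.eval_eq_sum_range]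
    rw [hsum, Finset.sum_range_succ] at hmem
    have hlow : ∑ i ∈ Finset.range P.natDegree, P.coeff i * s ^ i ∈ 𝔪 := by
      apply Ideal.sum_mem
      intro i hi
      apply Ideal.mul_mem_right
      have hi' : i < P.natDegree := Finset.mem_range.1 hi
      have h1 : P.coeff i ∈ Ideal.span {p} ^ (P.natDegree - i) := hPc i
      have h2 : Ideal.span {p} ^ (P.natDegree - i) ≤ Ideal.span {p} :=
        Ideal.pow_le_self (by omega)
      have h3 : Ideal.span {p} ≤ 𝔪 := (Ideal.span_singleton_le_iff_mem _).2 hp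
      exact h3 (h2 h1)
    have hlead : P.coeff P.natDegree = 1 := hPm
    rw [hlead, one_mul] at hmem
    exact (Ideal.add_mem_iff_right _ hlow).1 hmem
  · intro x
    have h0 : (algebraMap R (Module.End R Q) (Polynomial.aeval s P))
        (Submodule.Quotient.mk x : Q) = 0 := by
      rw [hP0]; rfl
    rw [Module.algebraMap_end_apply, ← Submodule.Quotient.mk_smul,
      Submodule.Quotient.mk_eq_zero] at h0
    exact h0

/-! ### The level-raising congruence (A3) from an eigenvector modulo `p` -/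

/-- If `x ∉ p X` is killed modulo `p` by the maximal ideal `𝔪`, then no `s ∉ 𝔪` moves `x`
into `p X`. -/
theorem smul_ne_smul_of_isMaximal
    {R X : Type*} [CommRing R] [AddCommGroup X] [Module R X]
    (𝔪 : Ideal R) [h𝔪 : 𝔪.IsMaximal] (p : R) (x : X) (hx : ∀ x' : X, x ≠ p • x')
    (hm : ∀ m ∈ 𝔪, ∃ x' : X, m • x = p • x') (s : R) (hs : s ∉ 𝔪) (x' : X) :
    s • x ≠ p • x' := by
  intro hsx
  obtain ⟨t, ht⟩ := Ideal.Quotient.exists_inv (I := 𝔪)
    (a := Ideal.Quotient.mk 𝔪 s) (by rwa [Ne, Ideal.Quotient.eq_zero_iff_mem])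
  obtain ⟨t, rfl⟩ := Ideal.Quotient.mk_surjective t
  rw [← map_mul, ← map_one (Ideal.Quotient.mk 𝔪), Ideal.Quotient.eq] at ht
  obtain ⟨x'', hx''⟩ := hm _ ht
  refine hx (t • x' - x'') ?_
  have : x = t • (s • x) - (s * t - 1) • x := by
    rw [sub_smul, one_smul, mul_comm, mul_smul]
    abel
  rw [this, hsx, hx'', smul_sub, smul_comm t p x']

end Fermat.Agent.S41.H39
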