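/-
S41, unit U8: the CORE of the level-raising argument as pure `ℤ`-linear algebra
(binding statement of the S41 architecture, coordinator's row of 07:23Z).

* `lattice_duality` : a `ZMod p`-valued biadditive form on a finitely generated abelian group `L`
  and a subgroup `U` whose left annihilator is `p L` satisfy `L = U + p L`.
* `core`            : the CORE statement.

Mathlib + `Fermat.Agent.S41.H39.Tau` only.
-/
import Mathlib
import Fermat.Agent.S41.H39.Tau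

set_option autoImplicit false
set_option linter.style.haveILetI false

namespace Fermat.Agent.S41.H39

/-- Auxiliary form of `lattice_duality`, with the reduction `L → V = L / p L` given abstractly. -/
theorem duality_aux
    {L V : Type*} [AddCommGroup L] [AddCommGroup V] (p : ℕ) [Fact p.Prime] [Module (ZMod p) V]
    [Module.Finite ℤ V] (π : L →+ V) (hπ : Function.Surjective π)
    (hker : ∀ x : L, π x = 0 → ∃ y : L, x = p • y)
    (E : L →+ L →+ ZMod p) (U : AddSubgroup L)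
    (hU : ∀ c : L, (∀ u ∈ U, E c u = 0) → ∃ c₀ : L, c = p • c₀) :
    ∀ x : L, ∃ u ∈ U, ∃ x₂ : L, x = u + p • x₂ := by
  classical
  have hfin : Module.Finite (ZMod p) V := Module.Finite.of_restrictScalars_finite ℤ (ZMod p) V
  -- `E` only depends on the classes modulo `p`
  have hE1 : ∀ c c' w : L, π c = π c' → E c w = E c' w := by
    intro c c' w h
    obtain ⟨y, hy⟩ := hker (c - c') (by rw [map_sub, h, sub_self])
    have h1 : E (c - c') w = 0 := by
      rw [hy, map_nsmul, AddMonoidHom.smul_apply]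
      exact ZModModule.char_nsmul_eq_zero p _
    rw [map_sub, AddMonoidHom.sub_apply, sub_eq_zero] at h1
    exact h1
  have hE2 : ∀ c w w' : L, π w = π w' → E c w = E c w' := by
    intro c w w' h
    obtain ⟨y, hy⟩ := hker (w - w') (by rw [map_sub, h, sub_self])
    have h1 : E c (w - w') = 0 := by
      rw [hy, map_nsmul]
      exact ZModModule.char_nsmul_eq_zero p _
    rw [map_sub, sub_eq_zero] at h1
    exact h1
  -- the form on `V`
  let s : V → L := Function.surjInv hπ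
  have hs : ∀ v : V, π (s v) = v := Function.surjInv_eq hπ
  have hB : ∀ c w : L, E (s (π c)) (s (π w)) = E c w := by
    intro c w
    rw [hE1 _ c _ (hs _), hE2 _ _ w (hs _)]
  have hadd2 : ∀ v w w' : V, E (s v) (s (w + w')) = E (s v) (s w) + E (s v) (s w') := by
    intro v w w'
    rw [← map_add]
    apply hE2
    rw [hs, map_add, hs, hs]
  have hadd1 : ∀ v v' w : V, E (s (v + v')) (s w) = E (s v) (s w) + E (s v') (s w) := by
    intro v v' w
    rw [← AddMonoidHom.add_apply, ← map_add]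
    apply hE1
    rw [hs, map_add, hs, hs]
  let B₀ : V → (V →+ ZMod p) := fun v => AddMonoidHom.mk' (fun w => E (s v) (s w)) (hadd2 v)
  let Φ₂ : V →+ (V →ₗ[ZMod p] ZMod p) := AddMonoidHom.mk' (fun v => (B₀ v).toZModLinearMap p)
    (by
      intro v v'
      refine LinearMap.ext fun w => ?_
      exact hadd1 v v' w)
  let Φ : V →ₗ[ZMod p] Module.Dual (ZMod p) V := Φ₂.toZModLinearMap p
  have hΦ : ∀ c w : L, Φ (π c) (π w) = E c w := fun c w => hB c w
  -- `Φ` is injective, hence surjective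
  have hinj : Function.Injective Φ := by
    rw [← LinearMap.ker_eq_bot, LinearMap.ker_eq_bot']
    intro v hv
    obtain ⟨c, rfl⟩ := hπ v
    obtain ⟨c₀, hc₀⟩ := hU c fun u _ => by
      rw [← hΦ, hv]
      rfl
    rw [hc₀, map_nsmul]
    exact ZModModule.char_nsmul_eq_zero p _
  have hsurj : Function.Surjective Φ :=
    (LinearMap.injective_iff_surjective_of_finrank_eq_finrank
      (Subspace.dual_finrank_eq (K := ZMod p) (V := V)).symm).1 hinj
  -- the image of `U`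
  set Ubar : Submodule (ZMod p) V := AddSubgroup.toZModSubmodule p (U.map π) with hUbar
  have hann : Ubar.dualAnnihilator = ⊥ := by
    rw [eq_bot_iff]
    intro φ hφ
    obtain ⟨v, rfl⟩ := hsurj φ
    obtain ⟨c, rfl⟩ := hπ v
    have hc : ∀ u ∈ U, E c u = 0 := by
      intro u hu
      rw [← hΦ]
      refine (Submodule.mem_dualAnnihilator _).1 hφ _ ?_
      rw [hUbar, AddSubgroup.mem_toZModSubmodule]
      exact ⟨u, hu, rfl⟩
    obtain ⟨c₀, hc₀⟩ := hU c hc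
    have : π c = 0 := by
      rw [hc₀, map_nsmul]
      exact ZModModule.char_nsmul_eq_zero p _
    rw [this, map_zero]
    exact Submodule.zero_mem _
  have htop : Ubar = ⊤ := by
    rw [← Subspace.dualAnnihilator_dualCoannihilator_eq (W := Ubar), hann]
    simp
  intro x
  have hx : π x ∈ Ubar := by rw [htop]; trivial
  rw [hUbar, AddSubgroup.mem_toZModSubmodule] at hx
  obtain ⟨u, hu, hux⟩ := hx
  obtain ⟨x₂, hx₂⟩ := hker (x - u) (by rw [map_sub, hux, sub_self])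
  exact ⟨u, hu, x₂, by rw [← hx₂]; abel⟩

/-- **Duality for lattices modulo `p`.** Let `E` be a biadditive `ZMod p`-valued form on a
finitely generated abelian group `L` and `U` a subgroup such that every `c` with `E c u = 0` for
all `u ∈ U` lies in `p L`. Then `L = U + p L`. -/
theorem lattice_duality
    {L : Type*} [AddCommGroup L] [Module.Finite ℤ L] (p : ℕ) (hp : p.Prime)
    (E : L →+ L →+ ZMod p) (U : AddSubgroup L)
    (hU : ∀ c : L, (∀ u ∈ U, E c u = 0) → ∃ c₀ : L, c = p • c₀) :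
    ∀ x : L, ∃ u ∈ U, ∃ x₂ : L, x = u + p • x₂ := by
  classical
  haveI : Fact p.Prime := ⟨hp⟩
  -- the subgroup `p L`
  set H : AddSubgroup L := (nsmulAddMonoidHom (α := L) p).range with hH
  have hHmem : ∀ x : L, x ∈ H ↔ ∃ y, x = p • y := by
    intro x
    rw [hH, AddMonoidHom.mem_range]
    constructor
    · rintro ⟨y, hy⟩
      exact ⟨y, hy.symm⟩
    · rintro ⟨y, hy⟩
      exact ⟨y, hy.symm⟩
  have hfin : Module.Finite ℤ (L ⧸ H) := Module.Finite.of_surjective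
    (QuotientAddGroup.mk' H).toIntLinearMap (QuotientAddGroup.mk'_surjective H)
  refine @duality_aux L (L ⧸ H) _ _ p _
    (QuotientAddGroup.zmodModule (fun x => (hHmem _).2 ⟨x, rfl⟩)) hfin (QuotientAddGroup.mk' H)
    (QuotientAddGroup.mk'_surjective H) ?_ E U hU
  intro x hx
  rw [QuotientAddGroup.mk'_apply, QuotientAddGroup.eq_zero_iff] at hx
  exact (hHmem x).1 hx

/-- **CORE of level raising** (pure `ℤ`-linear algebra; one Hecke operator).

`X`, `Y`: the lattices of levels `N`, `N q`; `a₁ a₂ : X → Y` the two degeneracy pull-backs,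
`b₁ b₂ : Y → X` the two transfers; `TX`, `TY` one Hecke operator `T_ℓ₀` at both levels,
`Tq` the operator `T_q` of level `N`; `m = q + 1`; `EX`, `EY` the pairings modulo `p`.
If `x` is an eigenvector modulo `p` for `TX` (eigenvalue `n`) and for `Tq` (eigenvalue `ε m`)
then `a₁ x - ε a₂ x` is congruent modulo `p` to a class killed by both transfers. -/
theorem core
    {X Y : Type*} [AddCommGroup X] [Module.Finite ℤ X] [AddCommGroup Y]
    (p : ℕ) (hp : p.Prime)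
    (a₁ a₂ : X →+ Y) (b₁ b₂ : Y →+ X) (TX Tq : X →+ X) (TY : Y →+ Y)
    (ha₁ : ∀ x, a₁ (TX x) = TY (a₁ x)) (ha₂ : ∀ x, a₂ (TX x) = TY (a₂ x))
    (hb₁ : ∀ y, b₁ (TY y) = TX (b₁ y)) (hb₂ : ∀ y, b₂ (TY y) = TX (b₂ y))
    (m : ℤ)
    (h11 : ∀ x, b₁ (a₁ x) = m • x) (h22 : ∀ x, b₂ (a₂ x) = m • x)
    (h12 : ∀ x, b₁ (a₂ x) = Tq x) (h21 : ∀ x, b₂ (a₁ x) = Tq x)
    (EX : X →+ X →+ ZMod p) (EY : Y →+ Y →+ ZMod p)
    (hEX : ∀ x : X, (∀ x', EX x x' = 0) → ∃ x₀ : X, x = p • x₀)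
    (hEY : ∀ y : Y, (∀ y', EY y y' = 0) → ∃ y₀ : Y, y = p • y₀)
    (hadj₁ : ∀ x u, EY (a₁ x) u = EX x (b₁ u)) (hadj₂ : ∀ x u, EY (a₂ x) u = EX x (b₂ u))
    (hSA : ∀ x x', EX (TX x) x' = EX x (TX x'))
    (n : ℤ)
    (hIH : ∀ x₁ x₂ : X, (∃ y : Y, a₁ x₁ + a₂ x₂ = p • y) → (∃ x' : X, TX x₁ - n • x₁ = p • x') →
      (∃ x' : X, x₁ = p • x') ∧ (∃ x' : X, x₂ = p • x'))
    (ε : ℤ) (hε : ε = 1 ∨ ε = -1)
    (x : X) (hxT : ∃ x' : X, TX x - n • x = p • x')
    (hxq : ∃ x' : X, Tq x - (ε * m) • x = p • x') :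
    ∃ y : Y, b₁ y = 0 ∧ b₂ y = 0 ∧ ∃ y' : Y, y - (a₁ x - ε • a₂ x) = p • y' := by
  classical
  have hε2 : ε * ε = 1 := by rcases hε with h | h <;> rw [h] <;> norm_num
  -- the maps on `L = X × X`
  let τ₀ : X →+ X := TX - zsmulAddGroupHom n
  have hτ₀ : ∀ w : X, τ₀ w = TX w - n • w := fun w => rfl
  let α : X × X →+ Y := a₁.coprod a₂
  let β : Y →+ X × X := b₁.prod b₂
  let τ : X × X →+ X × X := τ₀.prodMap τ₀
  have hα : ∀ w : X × X, α w = a₁ w.1 + a₂ w.2 := fun w => rfl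
  have hβ : ∀ y : Y, β y = (b₁ y, b₂ y) := fun y => rfl
  have hτ : ∀ w : X × X, τ w = (TX w.1 - n • w.1, TX w.2 - n • w.2) := fun w => rfl
  have hτβ : ∀ y : Y, τ (β y) = β (TY y - n • y) := by
    intro y
    rw [hτ, hβ, hβ, map_sub, map_sub, map_zsmul, map_zsmul, hb₁, hb₂]
  have hατ : ∀ w : X × X, α (τ w) = TY (α w) - n • α w := by
    intro w
    rw [hτ, hα, hα, map_sub, map_sub, map_zsmul, map_zsmul, ha₁, ha₂, map_add, smul_add]
    abel
  -- the pairing on `L`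
  let EL : X × X →+ X × X →+ ZMod p := AddMonoidHom.mk'
    (fun c => (EX c.1).comp (AddMonoidHom.fst X X) + (EX c.2).comp (AddMonoidHom.snd X X))
    (by
      intro c c'
      refine AddMonoidHom.ext fun w => ?_
      simp only [Prod.fst_add, Prod.snd_add, map_add, AddMonoidHom.add_apply,
        AddMonoidHom.coe_comp, Function.comp_apply, AddMonoidHom.coe_fst, AddMonoidHom.coe_snd]
      abel)
  have hEL : ∀ c w : X × X, EL c w = EX c.1 w.1 + EX c.2 w.2 := fun c w => rfl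
  -- duality
  have hU : ∀ c : X × X, (∀ u ∈ τ.range ⊔ β.range, EL c u = 0) → ∃ c₀ : X × X, c = p • c₀ := by
    intro c hc
    have h1 : ∃ y : Y, a₁ c.1 + a₂ c.2 = p • y := by
      apply hEY
      intro y'
      have h := hc (β y') (AddSubgroup.mem_sup_right ⟨y', rfl⟩)
      rw [hEL, hβ] at h
      rw [map_add, AddMonoidHom.add_apply, hadj₁, hadj₂]
      exact h
    have h2 : ∃ x' : X, TX c.1 - n • c.1 = p • x' := by
      apply hEX
      intro x'
      have h := hc (τ (x', 0)) (AddSubgroup.mem_sup_left ⟨(x', 0), rfl⟩)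
      rw [hEL, hτ] at h
      simp only [map_zero, smul_zero, sub_zero, add_zero, map_sub, map_zsmul] at h
      rw [map_sub, AddMonoidHom.sub_apply, map_zsmul, AddMonoidHom.smul_apply, hSA]
      exact h
    obtain ⟨⟨x₁', h₁⟩, ⟨x₂', h₂⟩⟩ := hIH c.1 c.2 h1 h2
    exact ⟨(x₁', x₂'), Prod.ext h₁ h₂⟩
  have H2 := lattice_duality p hp EL (τ.range ⊔ β.range) hU
  -- the lattice step
  obtain ⟨x', hx'⟩ := hxT
  obtain ⟨x'', hx''⟩ := hxq
  obtain ⟨y, hy0, ⟨z, hz⟩, -⟩ := lattice_step (p : ℤ) α.toIntLinearMap β.toIntLinearMap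
    τ.toIntLinearMap
    (fun y => ⟨TY y - n • y, hτβ y⟩)
    (fun v => by
      show τ (β (α v)) = β (α (τ v))
      rw [hτβ, hατ])
    (fun w => by
      obtain ⟨u, hu, x₂, hx₂⟩ := H2 w
      obtain ⟨u₁, ⟨w₁, rfl⟩, u₂, ⟨y₂, rfl⟩, rfl⟩ := AddSubgroup.mem_sup.1 hu
      exact ⟨w₁, y₂, x₂, by rw [hx₂, natCast_zsmul]; rfl⟩)
    (x, -(ε • x))
    ⟨(-(ε • x''), x''), by
      show β (α (x, -(ε • x))) = (p : ℤ) • (-(ε • x''), x'')
      have hTq : Tq x = (ε * m) • x + p • x'' := by rw [← hx'']; abel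
      rw [hα, hβ, natCast_zsmul]
      refine Prod.ext ?_ ?_
      · simp only [map_add, map_neg, map_zsmul, h11, h12, hTq, Prod.smul_fst, smul_add, smul_neg]
        rw [smul_smul, ← mul_assoc, hε2, one_mul, smul_comm ε p x'']
        abel
      · simp only [map_add, map_neg, map_zsmul, h21, h22, hTq, Prod.smul_snd]
        rw [smul_smul]
        abel⟩
    ⟨(x', -(ε • x')), by
      show τ (x, -(ε • x)) = (p : ℤ) • (x', -(ε • x'))
      rw [hτ, natCast_zsmul]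
      refine Prod.ext ?_ ?_
      · exact hx'
      · have hTX : TX x = n • x + p • x' := by rw [← hx']; abel
        simp only [Prod.smul_snd, map_neg, map_zsmul, smul_neg]
        rw [hTX, smul_add, smul_comm ε n x, smul_comm ε p x']
        abel⟩
  have hy0' : β y = 0 := hy0
  rw [hβ] at hy0'
  refine ⟨y, (Prod.ext_iff.1 hy0').1, (Prod.ext_iff.1 hy0').2, z, ?_⟩
  rw [hz, natCast_zsmul]
  show a₁ x + a₂ (-(ε • x)) + p • z - (a₁ x - ε • a₂ x) = p • z
  rw [map_neg, map_zsmul]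
  abel

/-- Complement to `core`: the class is not divisible by `p` when `x` is not. -/
theorem core_not_dvd
    {X Y : Type*} [AddCommGroup X] [AddCommGroup Y]
    (p : ℕ) (a₁ a₂ : X →+ Y) (TX : X →+ X) (n : ℤ)
    (hIH : ∀ x₁ x₂ : X, (∃ y : Y, a₁ x₁ + a₂ x₂ = p • y) → (∃ x' : X, TX x₁ - n • x₁ = p • x') →
      (∃ x' : X, x₁ = p • x') ∧ (∃ x' : X, x₂ = p • x'))
    (ε : ℤ) (x : X) (hx : ∀ x' : X, x ≠ p • x') (hxT : ∃ x' : X, TX x - n • x = p • x')
    (y : Y) (hy : ∃ y' : Y, y - (a₁ x - ε • a₂ x) = p • y') :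
    ∀ y' : Y, y ≠ p • y' := by
  intro y'' hy''
  obtain ⟨y', hy'⟩ := hy
  obtain ⟨⟨x₁, h₁⟩, -⟩ := hIH x (-(ε • x)) ⟨y'' - y', by
    rw [map_neg, map_zsmul, smul_sub, ← hy', ← hy'']
    abel⟩ hxT
  exact hx x₁ h₁

/-- `core` in the shape of the S41 architecture row (with the unit `c = 1`), including
`y ∉ p Y`. -/
theorem core_binding
    {X Y : Type*} [AddCommGroup X] [Module.Finite ℤ X] [AddCommGroup Y]
    (p : ℕ) (hp : p.Prime)
    (a₁ a₂ : X →+ Y) (b₁ b₂ : Y →+ X) (TX Tq : X →+ X) (TY : Y →+ Y)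
    (ha₁ : ∀ x, a₁ (TX x) = TY (a₁ x)) (ha₂ : ∀ x, a₂ (TX x) = TY (a₂ x))
    (hb₁ : ∀ y, b₁ (TY y) = TX (b₁ y)) (hb₂ : ∀ y, b₂ (TY y) = TX (b₂ y))
    (m : ℤ)
    (h11 : ∀ x, b₁ (a₁ x) = m • x) (h22 : ∀ x, b₂ (a₂ x) = m • x)
    (h12 : ∀ x, b₁ (a₂ x) = Tq x) (h21 : ∀ x, b₂ (a₁ x) = Tq x)
    (EX : X →+ X →+ ZMod p) (EY : Y →+ Y →+ ZMod p)
    (hEX : ∀ x : X, (∀ x', EX x x' = 0) → ∃ x₀ : X, x = p • x₀)
    (hEY : ∀ y : Y, (∀ y', EY y y' = 0) → ∃ y₀ : Y, y = p • y₀)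
    (hadj₁ : ∀ x u, EY (a₁ x) u = EX x (b₁ u)) (hadj₂ : ∀ x u, EY (a₂ x) u = EX x (b₂ u))
    (hSA : ∀ x x', EX (TX x) x' = EX x (TX x'))
    (n : ℤ)
    (hIH : ∀ x₁ x₂ : X, (∃ y : Y, a₁ x₁ + a₂ x₂ = p • y) → (∃ x' : X, TX x₁ - n • x₁ = p • x') →
      (∃ x' : X, x₁ = p • x') ∧ (∃ x' : X, x₂ = p • x'))
    (ε : ℤ) (hε : ε = 1 ∨ ε = -1)
    (x : X) (hx : ∀ x' : X, x ≠ p • x') (hxT : ∃ x' : X, TX x - n • x = p • x')
    (hxq : ∃ x' : X, Tq x - (ε * m) • x = p • x') :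
    ∃ (y : Y) (c : ℤ), ¬ (p : ℤ) ∣ c ∧ b₁ y = 0 ∧ b₂ y = 0 ∧
      (∃ y' : Y, y - c • (a₁ x - ε • a₂ x) = p • y') ∧ ∀ y' : Y, y ≠ p • y' := by
  obtain ⟨y, h1, h2, h3⟩ := core p hp a₁ a₂ b₁ b₂ TX Tq TY ha₁ ha₂ hb₁ hb₂ m h11 h22 h12 h21
    EX EY hEX hEY hadj₁ hadj₂ hSA n hIH ε hε x hxT hxq
  refine ⟨y, 1, ?_, h1, h2, ?_, core_not_dvd p a₁ a₂ TX n hIH ε x hx hxT y h3⟩
  · intro h
    exact hp.one_lt.ne' (by exact_mod_cast Int.eq_one_of_dvd_one (by positivity) h)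
  · rw [one_smul]
    exact h3

end Fermat.Agent.S41.H39
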