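/-
S41, unit U8 (assembly), abstract lattice step in the "one operator `τ`" form.

`L` = two copies of the level-`N` lattice, `L'` = the level-`Nq` lattice, `α : L → L'` the sum of
the two degeneracy pull-backs, `β : L' → L` the pair of transfers, `τ = T_{ℓ₀} - a_{ℓ₀}` for one
non-Eisenstein prime `ℓ₀`.

* `exists_poly_forall_mem`   : Nakayama for `ℤ[τ]`: `L = τ L + J + p L` with `J` `τ`-stable gives
                               `r = 1 + p g(τ) + h(τ) τ` with `r L ⊆ J`.
* `lattice_step`             : (K1) Ribet's counting step.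
* `range_sup_range_eq_top`   : (K0) duality over a field gives `V = τ V + β V'`.

Mathlib-only.
-/
import Mathlib

set_option autoImplicit false

namespace Fermat.Agent.S41.H39

open Polynomial

/-- An endomorphism commuting with `τ` commutes with every polynomial in `τ`. -/
theorem commute_aeval {L : Type*} [AddCommGroup L] (c τ : Module.End ℤ L) (h : Commute c τ)
    (f : ℤ[X]) : Commute c (aeval τ f) := by
  induction f using Polynomial.induction_on' with
  | add p q hp hq => rw [map_add]; exact hp.add_right hq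
  | monomial n a =>
    rw [← Polynomial.C_mul_X_pow_eq_monomial, map_mul, aeval_C, map_pow, aeval_X]
    exact (Algebra.commute_algebraMap_right a c).mul_right (h.pow_right n)

/-- A `τ`-stable submodule is stable under every polynomial in `τ`. -/
theorem aeval_mem_of_stable {L : Type*} [AddCommGroup L] (τ : Module.End ℤ L) (J : Submodule ℤ L)
    (hJ : ∀ x ∈ J, τ x ∈ J) (f : ℤ[X]) (x : L) (hx : x ∈ J) : aeval τ f x ∈ J := by
  induction f using Polynomial.induction_on' with
  | add p q hp hq => rw [map_add]; exact J.add_mem hp hq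
  | monomial n a =>
    rw [← Polynomial.C_mul_X_pow_eq_monomial, map_mul, aeval_C, map_pow, aeval_X]
    have hpow : ∀ (n : ℕ) (y : L), y ∈ J → (τ ^ n) y ∈ J := by
      intro n
      induction n with
      | zero => intro y hy; simpa using hy
      | succ n ih => intro y hy; rw [pow_succ]; exact ih _ (hJ y hy)
    exact J.smul_mem a (hpow n x hx)

/-- **Nakayama for `ℤ[τ]`.** If `L = τ L + J + p L` with `J` stable under `τ`, then there are
polynomials `g, h` such that `x + p g(τ) x + h(τ) (τ x) ∈ J` for all `x`. -/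
theorem exists_poly_forall_mem
    {L : Type*} [AddCommGroup L] [Module.Finite ℤ L] (p : ℤ) (τ : Module.End ℤ L)
    (J : Submodule ℤ L) (hJ : ∀ x ∈ J, τ x ∈ J)
    (H2 : ∀ x : L, ∃ x₁ : L, ∃ j ∈ J, ∃ x₂ : L, x = τ x₁ + j + p • x₂) :
    ∃ g h : ℤ[X], ∀ x : L, x + p • (aeval τ g x) + aeval τ h (τ x) ∈ J := by
  classical
  have hJ' : J ∈ ((Algebra.lsmul ℤ ℤ L) τ).invtSubmodule := by
    rw [Module.End.mem_invtSubmodule]
    intro x hx
    exact hJ x hx
  set J' : Submodule ℤ[X] (Module.AEval ℤ L τ) := Module.AEval.mapSubmodule ℤ L τ ⟨J, hJ'⟩ with hJ'def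
  have hle : (⊤ : Submodule ℤ[X] (Module.AEval ℤ L τ ⧸ J')) ≤
      Ideal.span {C p, X} • (⊤ : Submodule ℤ[X] (Module.AEval ℤ L τ ⧸ J')) := by
    rintro m -
    obtain ⟨m, rfl⟩ := Submodule.Quotient.mk_surjective _ m
    obtain ⟨x, rfl⟩ := (Module.AEval.of ℤ L τ).surjective m
    obtain ⟨x₁, j, hj, x₂, hx⟩ := H2 x
    have hjmem : Module.AEval.of ℤ L τ j ∈ J' := by
      rw [hJ'def, Module.AEval.mem_mapSubmodule_apply]
      simpa using hj
    have e1 : Module.AEval.of ℤ L τ (τ x₁) = (X : ℤ[X]) • Module.AEval.of ℤ L τ x₁ := by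
      rw [Module.AEval.X_smul_of]; rfl
    have e2 : Module.AEval.of ℤ L τ (p • x₂) = (C p : ℤ[X]) • Module.AEval.of ℤ L τ x₂ := by
      rw [Module.AEval.C_smul]
      exact map_smul _ p x₂
    have e : (Submodule.Quotient.mk (Module.AEval.of ℤ L τ x) : Module.AEval ℤ L τ ⧸ J') =
        (X : ℤ[X]) • Submodule.Quotient.mk (Module.AEval.of ℤ L τ x₁) +
          (C p : ℤ[X]) • Submodule.Quotient.mk (Module.AEval.of ℤ L τ x₂) := by
      rw [hx, map_add, map_add, e1, e2, Submodule.Quotient.mk_add, Submodule.Quotient.mk_add,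
        (Submodule.Quotient.mk_eq_zero _).2 hjmem, add_zero, Submodule.Quotient.mk_smul,
        Submodule.Quotient.mk_smul]
    rw [e]
    refine Submodule.add_mem _ (Submodule.smul_mem_smul (Ideal.subset_span ?_) trivial)
      (Submodule.smul_mem_smul (Ideal.subset_span ?_) trivial)
    · simp
    · simp
  obtain ⟨r, hr, hr0⟩ := Submodule.exists_sub_one_mem_and_smul_eq_zero_of_fg_of_le_smul
    (Ideal.span {C p, X}) (⊤ : Submodule ℤ[X] (Module.AEval ℤ L τ ⧸ J')) Module.Finite.fg_top hle
  obtain ⟨a, b, hab⟩ := Ideal.mem_span_pair.1 hr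
  refine ⟨a, b, fun x => ?_⟩
  have h0 := hr0 (Submodule.Quotient.mk (Module.AEval.of ℤ L τ x)) trivial
  rw [← Submodule.Quotient.mk_smul, Submodule.Quotient.mk_eq_zero, ← Module.AEval.of_aeval_smul,
    hJ'def, Module.AEval.mem_mapSubmodule_apply] at h0
  have hr' : r = 1 + a * C p + b * X := by linear_combination -hab
  have h1 : (aeval τ r) • x = x + p • (aeval τ a x) + aeval τ b (τ x) := by
    rw [hr']
    simp only [map_add, map_mul, map_one, aeval_C, aeval_X, Module.End.smul_def,
      LinearMap.add_apply, Module.End.mul_apply, Module.End.one_apply,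
      Module.algebraMap_end_apply, map_smul]
  rw [← h1]
  simpa using h0

/-- **(K1) Lattice step** (Ribet's counting step, one-operator form).
If `L = τ L + β L' + p L` (duality), `τ` commutes with `β ∘ α` and preserves `β L'`, then every
`v` with `β (α v) ∈ p L` and `τ v ∈ p L` yields `y ∈ ker β` with `y ≡ α v mod p L'`; and
`y ∉ p L'` as soon as `v ∉ p L` and Ihara's lemma `α v ∈ p L' → τ v ∈ p L → v ∈ p L` holds. -/
theorem lattice_step
    {L L' : Type*} [AddCommGroup L] [Module.Finite ℤ L] [AddCommGroup L']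
    (p : ℤ) (α : L →ₗ[ℤ] L') (β : L' →ₗ[ℤ] L) (τ : L →ₗ[ℤ] L)
    (hτβ : ∀ y : L', ∃ y' : L', τ (β y) = β y')
    (hcomm : ∀ v : L, τ (β (α v)) = β (α (τ v)))
    (H2 : ∀ x : L, ∃ (x₁ : L) (y : L') (x₂ : L), x = τ x₁ + β y + p • x₂)
    (v : L) (hβα : ∃ u : L, β (α v) = p • u) (hτv : ∃ u : L, τ v = p • u) :
    ∃ y : L', β y = 0 ∧ (∃ z : L', y = α v + p • z) ∧
      ((∀ u : L, v ≠ p • u) → ((∃ y' : L', α v = p • y') → ∃ u : L, v = p • u) →
        ∀ y' : L', y ≠ p • y') := by
  classical
  obtain ⟨g, h, hgh⟩ := exists_poly_forall_mem p τ (LinearMap.range β)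
    (by rintro _ ⟨y, rfl⟩; obtain ⟨y', hy'⟩ := hτβ y; exact ⟨y', hy'.symm⟩)
    (by
      intro x
      obtain ⟨x₁, y, x₂, hx⟩ := H2 x
      exact ⟨x₁, β y, ⟨y, rfl⟩, x₂, hx⟩)
  obtain ⟨u, hu⟩ := hβα
  obtain ⟨u', hu'⟩ := hτv
  obtain ⟨z, hz⟩ := hgh u
  -- `β ∘ α` commutes with polynomials in `τ`
  have hc : Commute (β ∘ₗ α : Module.End ℤ L) τ := by
    ext w
    simp only [Module.End.mul_apply, LinearMap.comp_apply]
    exact (hcomm w).symm
  have hcg : ∀ w : L, β (α (aeval τ g w)) = aeval τ g (β (α w)) := by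
    intro w
    have := LinearMap.congr_fun (commute_aeval _ τ hc g).eq w
    simpa using this
  have hch : ∀ w : L, β (α (aeval τ h w)) = aeval τ h (β (α w)) := by
    intro w
    have := LinearMap.congr_fun (commute_aeval _ τ hc h).eq w
    simpa using this
  -- the class
  refine ⟨α v + p • (α (aeval τ g v) + α (aeval τ h u') - z), ?_, ⟨_, rfl⟩, ?_⟩
  · have e1 : p • β (α (aeval τ h u')) = p • aeval τ h (τ u) := by
      rw [← map_smul, ← map_smul, ← map_smul, ← hu', hch, ← hcomm, hu, map_smul, map_smul]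
    rw [map_add, map_smul, map_sub, map_add, smul_sub, smul_add, e1, hcg, hu, hz]
    simp only [map_smul, smul_add]
    abel
  · intro hv hI y' hy'
    obtain ⟨u'', hu''⟩ := hI ⟨y' - (α (aeval τ g v) + α (aeval τ h u') - z), by
      rw [smul_sub, ← hy']; abel⟩
    exact hv u'' hu''

/-- **(K0) Duality over a field**: if `a` and `b` are adjoint for left-nondegenerate forms, `t`
is self-adjoint, and `ker a ∩ ker t = 0` (Ihara), then `V = t V + b V'`. -/
theorem range_sup_range_eq_top
    {k V V' : Type*} [Field k] [AddCommGroup V] [Module k V] [FiniteDimensional k V]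
    [AddCommGroup V'] [Module k V']
    (BV : V →ₗ[k] V →ₗ[k] k) (BV' : V' →ₗ[k] V' →ₗ[k] k)
    (a : V →ₗ[k] V') (b : V' →ₗ[k] V) (t : V →ₗ[k] V)
    (hadj : ∀ v v', BV' (a v) v' = BV v (b v'))
    (hV : ∀ v, (∀ w, BV v w = 0) → v = 0)
    (hV' : ∀ v', (∀ w', BV' v' w' = 0) → v' = 0)
    (ht : ∀ v w, BV (t v) w = BV v (t w))
    (H1 : ∀ v, a v = 0 → t v = 0 → v = 0) :
    LinearMap.range t ⊔ LinearMap.range b = ⊤ := by
  have hinj : Function.Injective BV := by
    rw [← LinearMap.ker_eq_bot, LinearMap.ker_eq_bot']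
    intro v hv
    exact hV v fun w => by rw [hv]; rfl
  have hsurj : Function.Surjective BV :=
    (LinearMap.injective_iff_surjective_of_finrank_eq_finrank
      (Subspace.dual_finrank_eq (K := k) (V := V)).symm).1 hinj
  have hann : (LinearMap.range t ⊔ LinearMap.range b).dualAnnihilator = ⊥ := by
    rw [eq_bot_iff]
    intro φ hφ
    obtain ⟨c, rfl⟩ := hsurj φ
    have hc1 : a c = 0 := hV' _ fun w' => by
      rw [hadj]
      exact (Submodule.mem_dualAnnihilator _).1 hφ _ (Submodule.mem_sup_right ⟨w', rfl⟩)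
    have hc2 : t c = 0 := hV _ fun w => by
      rw [ht]
      exact (Submodule.mem_dualAnnihilator _).1 hφ _ (Submodule.mem_sup_left ⟨w, rfl⟩)
    rw [H1 c hc1 hc2]
    simp
  rw [← Subspace.dualAnnihilator_dualCoannihilator_eq
    (W := LinearMap.range t ⊔ LinearMap.range b), hann]
  simp

end Fermat.Agent.S41.H39
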